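/-
T1G (helper6), TG-DESC part 1: **pull-back of a group action along an embedding of fields**.

`φ : L → K` a homomorphism of fields, `E` an `L`-field, `F` a `K`-field, `ι : E → F` a ring
homomorphism over `φ`, `ρ : G → Aut_K(F)` an action all of whose elements map `ι(E)` into itself.
Then `tgpPull : G →* (E ≃ₐ[L] E)` is the action with `ι (tgpPull g x) = ρ g (ι x)`.
-/
import Mathlib

set_option autoImplicit false
set_option linter.unusedSectionVars false

noncomputable section

namespace Fermat.Agent.T1G

section Pull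

variable {L K : Type*} [Field L] [Field K] (φ : L →+* K)
  {E F : Type*} [Field E] [Field F] [Algebra L E] [Algebra K F] (ι : E →+* F)
  (hι : ∀ c : L, ι (algebraMap L E c) = algebraMap K F (φ c))
  {G : Type*} [Group G] (ρ : G →* (F ≃ₐ[K] F))
  (hstab : ∀ (g : G) (x : E), ∃ y : E, ι y = ρ g (ι x))

/-- the pulled back action, as a function -/
def tgpPullFun (g : G) (x : E) : E := (hstab g x).choose

theorem tgpPullFun_spec (g : G) (x : E) : ι (tgpPullFun ι ρ hstab g x) = ρ g (ι x) :=
  (hstab g x).choose_spec

theorem tgpPullFun_one (x : E) : tgpPullFun ι ρ hstab 1 x = x := by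
  apply ι.injective
  rw [tgpPullFun_spec, map_one, AlgEquiv.one_apply]

theorem tgpPullFun_mul (g h : G) (x : E) :
    tgpPullFun ι ρ hstab (g * h) x = tgpPullFun ι ρ hstab g (tgpPullFun ι ρ hstab h x) := by
  apply ι.injective
  rw [tgpPullFun_spec, tgpPullFun_spec, tgpPullFun_spec, map_mul, AlgEquiv.mul_apply]

include hι in
/-- the pulled back action of one element -/
def tgpPullEquiv (g : G) : E ≃ₐ[L] E where
  toFun := tgpPullFun ι ρ hstab g
  invFun := tgpPullFun ι ρ hstab g⁻¹
  left_inv x := by rw [← tgpPullFun_mul, inv_mul_cancel, tgpPullFun_one]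
  right_inv x := by rw [← tgpPullFun_mul, mul_inv_cancel, tgpPullFun_one]
  map_mul' x y := by
    apply ι.injective
    rw [map_mul, tgpPullFun_spec, tgpPullFun_spec, tgpPullFun_spec, map_mul, map_mul]
  map_add' x y := by
    apply ι.injective
    rw [map_add, tgpPullFun_spec, tgpPullFun_spec, tgpPullFun_spec, map_add, map_add]
  commutes' c := by
    apply ι.injective
    show ι (tgpPullFun ι ρ hstab g (algebraMap L E c)) = _
    rw [tgpPullFun_spec, hι, AlgEquiv.commutes]

/-- **the pulled back action** -/
def tgpPull : G →* (E ≃ₐ[L] E) where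
  toFun := tgpPullEquiv φ ι hι ρ hstab
  map_one' := by
    ext x
    exact tgpPullFun_one ι ρ hstab x
  map_mul' g h := by
    ext x
    exact tgpPullFun_mul ι ρ hstab g h x

theorem tgpPull_spec (g : G) (x : E) : ι (tgpPull φ ι hι ρ hstab g x) = ρ g (ι x) :=
  tgpPullFun_spec ι ρ hstab g x

end Pull

end Fermat.Agent.T1G
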