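/-
T1G (helper6), TG-DESC part 2: **descent of the Galois package to a subfield**.

`φ : L → K` a homomorphism of fields of characteristic `0`, `ζ ∈ L` a primitive `M`-th root of
unity.  A Galois package `G : TgGalois K M (φ ζ)` restricts to a Galois package
`tgpGal φ hζ G : TgGalois L M ζ`, with `coeffMap φ (ρ_L γ x) = ρ_K γ (coeffMap φ x)`.
(The full level field of `L` is mapped into the full level field of `K` by `coeffMap φ`, its image
is stable under `SL₂(ℤ)` because the generators are permuted, and the fixed field descends by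
linear disjointness: `x ∈ L((t))`, `φ x ∈ K(j)` ⟹ `x ∈ L(j)`.)
-/
import Fermat.Agent.Lib.T1G.Desc.Pull
import Fermat.Agent.Lib.T1G.Model.GaloisPre
import Fermat.Agent.Lib.T1.Desc.Basic

set_option autoImplicit false
set_option linter.unusedSectionVars false
set_option linter.style.haveILetI false
set_option synthInstance.maxHeartbeats 400000

open HahnSeries ModularCurve Fermat.Agent.Igusa Matrix MatrixGroups CongruenceSubgroup
  IntermediateField Fermat.Agent.T1

noncomputable section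

namespace Fermat.Agent.T1G

variable {L K : Type*} [Field L] [Field K] (φ : L →+* K) {M : ℕ} [NeZero M] {ζ : Lˣ}
  (hζ : IsPrimitiveRoot ζ M)

/-! ### The generators -/

include hζ in
theorem tgp_isUnit {v : ZMod M × ZMod M} (hv : v ≠ 0) (h1 : v.1 = 0) :
    IsUnit (1 - ((tgZ L M ζ v.2 : Lˣ) : L)) := by
  rw [isUnit_iff_ne_zero, sub_ne_zero]
  intro h
  have h2 : tgZ L M ζ v.2 = 1 := Units.ext h.symm
  rw [tgZ, hζ.pow_eq_one_iff_dvd] at h2
  have h3 := Nat.eq_zero_of_dvd_of_lt h2 (ZMod.val_lt v.2)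
  exact hv (Prod.ext h1 ((ZMod.val_eq_zero v.2).mp h3))

include hζ in
theorem tgp_coeffMap_tgNu {v w : ZMod M × ZMod M} (hv : v ≠ 0) (hw : w ≠ 0) :
    coeffMap φ (tgNu L M ζ v w) = tgNu K M (Units.map (φ : L →* K) ζ) v w :=
  coeffMap_tgNu φ M ζ v w (tgp_isUnit hζ hv) (tgp_isUnit hζ hw)

theorem tgp_coeffMap_algebraMap (c : L) :
    coeffMap φ (algebraMap L (LaurentSeries L) c) = algebraMap K (LaurentSeries K) (φ c) := by
  rw [algebraMap_laurentSeries_eq_single, algebraMap_laurentSeries_eq_single, coeffMap_single]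

theorem tgp_coeffMap_injective : Function.Injective (coeffMap φ) := by
  intro s t h
  refine HahnSeries.ext (funext fun n => ?_)
  have := congrArg (fun x : LaurentSeries K => x.coeff n) h
  simp only [coeffMap_coeff] at this
  exact φ.injective this

include hζ in
/-- `coeffMap φ` maps the full level field of `L` into the full level field of `K` -/
theorem tgp_coeffMap_mem_full {x : LaurentSeries L} (hx : x ∈ tgFull L M ζ) :
    coeffMap φ x ∈ tgFull K M (Units.map (φ : L →* K) ζ) := by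
  have hx' : x ∈ IntermediateField.adjoin L (tgJSet L M ζ ∪ tgNuSet L M ζ) := hx
  clear hx
  induction hx' using IntermediateField.adjoin_induction with
  | mem y hy =>
    rcases hy with ⟨a', d', b', h, hb, rfl⟩ | ⟨v, w, hv, hw, rfl⟩
    · rw [coeffMap_tgJc]
      exact tgJc_mem_tgFull K M _ h hb
    · rw [tgp_coeffMap_tgNu φ hζ hv hw]
      exact tgNu_mem_tgFull K M _ hv hw
  | algebraMap c =>
    rw [tgp_coeffMap_algebraMap]
    exact (tgFull K M _).algebraMap_mem _
  | add x y _ _ hx hy =>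
    rw [map_add]
    exact add_mem hx hy
  | inv x _ hx =>
    rw [map_inv₀]
    exact inv_mem hx
  | mul x y _ _ hx hy =>
    rw [map_mul]
    exact mul_mem hx hy

/-- the embedding of the full level fields -/
def tgpIota : ↥(tgFull L M ζ) →+* ↥(tgFull K M (Units.map (φ : L →* K) ζ)) :=
  ((coeffMap φ).comp (tgFull L M ζ).val.toRingHom).codRestrict
    (tgFull K M (Units.map (φ : L →* K) ζ)).toSubring
    (fun x => tgp_coeffMap_mem_full φ hζ x.2)

theorem coe_tgpIota (x : ↥(tgFull L M ζ)) :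
    ((tgpIota φ hζ x : ↥(tgFull K M (Units.map (φ : L →* K) ζ))) : LaurentSeries K) =
      coeffMap φ (x : LaurentSeries L) := rfl

theorem tgpIota_algebraMap (c : L) :
    tgpIota φ hζ (algebraMap L ↥(tgFull L M ζ) c) =
      algebraMap K ↥(tgFull K M (Units.map (φ : L →* K) ζ)) (φ c) := by
  apply Subtype.ext
  rw [coe_tgpIota]
  exact tgp_coeffMap_algebraMap φ c

theorem tgpIota_tgNuE {v w : ZMod M × ZMod M} (hv : v ≠ 0) (hw : w ≠ 0) :
    tgpIota φ hζ (tgNuE L M ζ hv hw) = tgNuE K M (Units.map (φ : L →* K) ζ) hv hw := by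
  apply Subtype.ext
  rw [coe_tgpIota]
  exact tgp_coeffMap_tgNu φ hζ hv hw

theorem tgpIota_tgJ : tgpIota φ hζ (tgJ L M ζ) = tgJ K M (Units.map (φ : L →* K) ζ) := by
  apply Subtype.ext
  rw [coe_tgpIota]
  show coeffMap φ (qExpand L M (jqModC L)) = qExpand K M (jqModC K)
  rw [coeffMap_qExpand, coeffMap_jqModC]

theorem tgpIota_tgJd {d : ℕ} [NeZero d] (hd : d ∣ M) :
    tgpIota φ hζ (tgJd L M ζ hd) = tgJd K M (Units.map (φ : L →* K) ζ) hd := by
  apply Subtype.ext
  rw [coe_tgpIota]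
  show coeffMap φ (qExpand L (M * d) (jqModC L)) = qExpand K (M * d) (jqModC K)
  rw [coeffMap_qExpand, coeffMap_jqModC]

/-! ### Stability of the image -/

variable (G : TgGalois K M (Units.map (φ : L →* K) ζ))

/-- the image of the full level field of `L` is stable under the action -/
theorem tgp_stab (γ : SL(2, ℤ)) (x : ↥(tgFull L M ζ)) :
    ∃ y : ↥(tgFull L M ζ), tgpIota φ hζ y = G.ρ γ (tgpIota φ hζ x) := by
  obtain ⟨x, hx⟩ := x
  have hx' : x ∈ IntermediateField.adjoin L (tgJSet L M ζ ∪ tgNuSet L M ζ) := hx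
  have key : ∀ (x : LaurentSeries L)
      (hx' : x ∈ IntermediateField.adjoin L (tgJSet L M ζ ∪ tgNuSet L M ζ)),
      ∃ y : ↥(tgFull L M ζ), tgpIota φ hζ y = G.ρ γ (tgpIota φ hζ ⟨x, hx'⟩) := by
    intro x hx'
    induction hx' using IntermediateField.adjoin_induction with
    | mem y hy =>
      rcases hy with ⟨a', d', b', h, hb, rfl⟩ | ⟨v, w, hv, hw, rfl⟩
      · -- a conjugate of `j(q^d)`
        have h1 : ((tgpIota φ hζ ⟨tgJc L ζ (M / d' * b') (M / d' * a'),
            tgJc_mem_tgFull L M ζ h hb⟩ : ↥(tgFull K M (Units.map (φ : L →* K) ζ))) :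
            LaurentSeries K) ∈ tgJSet K M (Units.map (φ : L →* K) ζ) := by
          rw [coe_tgpIota, coeffMap_tgJc]
          exact ⟨a', d', b', h, hb, rfl⟩
        obtain ⟨a'', d'', b'', h', hb', h2⟩ := G.ρ_jset γ _ h1
        refine ⟨⟨tgJc L ζ (M / d'' * b'') (M / d'' * a''), tgJc_mem_tgFull L M ζ h' hb'⟩, ?_⟩
        apply Subtype.ext
        rw [coe_tgpIota, coeffMap_tgJc]
        exact h2.symm
      · refine ⟨tgNuE L M ζ (tgAct_ne_zero M γ⁻¹ hv) (tgAct_ne_zero M γ⁻¹ hw), ?_⟩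
        have h1 : (⟨tgNu L M ζ v w, IntermediateField.subset_adjoin L _
            (Or.inr ⟨v, w, hv, hw, rfl⟩)⟩ : ↥(tgFull L M ζ)) = tgNuE L M ζ hv hw := rfl
        rw [h1, tgpIota_tgNuE, tgpIota_tgNuE, G.ρ_nu]
    | algebraMap c =>
      refine ⟨algebraMap L ↥(tgFull L M ζ) c, ?_⟩
      have h1 : (⟨algebraMap L (LaurentSeries L) c, IntermediateField.algebraMap_mem _ c⟩ :
          ↥(tgFull L M ζ)) = algebraMap L ↥(tgFull L M ζ) c := rfl
      rw [h1, tgpIota_algebraMap, AlgEquiv.commutes]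
    | add x y hx hy hx' hy' =>
      obtain ⟨a, ha⟩ := hx'
      obtain ⟨b, hb⟩ := hy'
      refine ⟨a + b, ?_⟩
      have h1 : (⟨x + y, add_mem hx hy⟩ : ↥(tgFull L M ζ)) = ⟨x, hx⟩ + ⟨y, hy⟩ := rfl
      rw [h1, map_add, map_add, map_add, ha, hb]
    | inv x hx hx' =>
      obtain ⟨a, ha⟩ := hx'
      refine ⟨a⁻¹, ?_⟩
      have h1 : (⟨x⁻¹, inv_mem hx⟩ : ↥(tgFull L M ζ)) = (⟨x, hx⟩ : ↥(tgFull L M ζ))⁻¹ := rfl
      rw [h1, map_inv₀, map_inv₀, map_inv₀, ha]
    | mul x y hx hy hx' hy' =>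
      obtain ⟨a, ha⟩ := hx'
      obtain ⟨b, hb⟩ := hy'
      refine ⟨a * b, ?_⟩
      have h1 : (⟨x * y, mul_mem hx hy⟩ : ↥(tgFull L M ζ)) = ⟨x, hx⟩ * ⟨y, hy⟩ := rfl
      rw [h1, map_mul, map_mul, map_mul, ha, hb]
  exact key x hx'

/-- **the descended action** -/
def tgpRho : SL(2, ℤ) →* (↥(tgFull L M ζ) ≃ₐ[L] ↥(tgFull L M ζ)) :=
  tgpPull φ (tgpIota φ hζ) (tgpIota_algebraMap φ hζ) G.ρ (tgp_stab φ hζ G)

theorem tgpRho_spec (γ : SL(2, ℤ)) (x : ↥(tgFull L M ζ)) :
    tgpIota φ hζ (tgpRho φ hζ G γ x) = G.ρ γ (tgpIota φ hζ x) :=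
  tgpPull_spec φ (tgpIota φ hζ) (tgpIota_algebraMap φ hζ) G.ρ (tgp_stab φ hζ G) γ x

theorem tgpIota_injective : Function.Injective (tgpIota φ hζ (K := K)) :=
  (tgpIota φ hζ).injective

/-- the descended package, without the fixed field condition -/
def tgpPre : TgPre L M ζ where
  ρ := tgpRho φ hζ G
  ρ_nu γ v w hv hw := by
    apply tgpIota_injective φ hζ
    rw [tgpRho_spec, tgpIota_tgNuE, tgpIota_tgNuE, G.ρ_nu]
  ρ_jset γ x hx := by
    obtain ⟨a', d', b', h, hb, hx⟩ := hx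
    have h1 : ((tgpIota φ hζ x : ↥(tgFull K M (Units.map (φ : L →* K) ζ))) : LaurentSeries K) ∈
        tgJSet K M (Units.map (φ : L →* K) ζ) := by
      rw [coe_tgpIota, hx, coeffMap_tgJc]
      exact ⟨a', d', b', h, hb, rfl⟩
    obtain ⟨a'', d'', b'', h', hb', h2⟩ := G.ρ_jset γ _ h1
    refine ⟨a'', d'', b'', h', hb', ?_⟩
    apply tgp_coeffMap_injective φ
    rw [← coe_tgpIota φ hζ, tgpRho_spec, h2, coeffMap_tgJc]
  ρ_J γ := by
    apply tgpIota_injective φ hζ
    rw [tgpRho_spec, tgpIota_tgJ, G.ρ_J]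
  ρ_T x := by
    apply tgp_coeffMap_injective φ
    rw [← coe_tgpIota φ hζ, tgpRho_spec, G.ρ_T, coe_tgpIota, coeffMap_lsTwist]
  ρ_jd γ hγ d _ hd := by
    apply tgpIota_injective φ hζ
    rw [tgpRho_spec, tgpIota_tgJd, G.ρ_jd γ hγ]
  stab_jM γ hγ := by
    apply G.stab_jM
    rw [← tgpIota_tgJd φ hζ, ← tgpRho_spec, hγ]
  ρ_Gamma γ hγ := by
    refine AlgEquiv.ext fun x => ?_
    apply tgpIota_injective φ hζ
    rw [tgpRho_spec, G.ρ_Gamma γ hγ]
    rfl
  ρ_neg_one := by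
    refine AlgEquiv.ext fun x => ?_
    apply tgpIota_injective φ hζ
    rw [tgpRho_spec, G.ρ_neg_one]
    rfl

end Fermat.Agent.T1G

namespace Fermat.Agent.T1G

/-! ### The fixed field -/

section Coe

variable {K Ω : Type*} [Field K] [Field Ω] [Algebra K Ω] (E : IntermediateField K Ω)

/-- membership in `K(y)` can be tested in the ambient field -/
theorem tgp_mem_adjoin_coe_iff (y z : ↥E) :
    z ∈ (K⟮y⟯ : IntermediateField K ↥E) ↔ (z : Ω) ∈ K⟮(y : Ω)⟯ := by
  have h : K⟮(y : Ω)⟯ = (K⟮y⟯ : IntermediateField K ↥E).map E.val := by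
    rw [IntermediateField.adjoin_map, Set.image_singleton]
    rfl
  rw [h]
  constructor
  · intro hz
    exact ⟨z, hz, rfl⟩
  · rintro ⟨c, hc, e⟩
    have : c = z := Subtype.ext e
    rwa [← this]

end Coe

section JField

variable (L : Type*) [Field L] [Algebra ℚ L] (M : ℕ) [NeZero M]

/-- `ℚ(j(t^M)) ⊆ ℚ((t))` -/
def tgpJQ : IntermediateField ℚ (LaurentSeries ℚ) := ℚ⟮qExpand ℚ M jq⟯

theorem tgp_coeffEmb_jM : coeffEmb L (qExpand ℚ M jq) = qExpand L M (jqModC L) := by
  rw [coeffEmb, coeffMap_qExpand, ← jqModC_rat, coeffMap_jqModC]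

theorem tgp_adjoin_le_baseChange :
    L⟮qExpand L M (jqModC L)⟯ ≤ laurentBaseChange L (tgpJQ M) := by
  rw [IntermediateField.adjoin_le_iff, Set.singleton_subset_iff, SetLike.mem_coe,
    ← tgp_coeffEmb_jM]
  exact coeffEmb_mem_laurentBaseChange L (IntermediateField.mem_adjoin_simple_self ℚ _)

theorem tgp_baseChange_le_adjoin :
    laurentBaseChange L (tgpJQ M) ≤ L⟮qExpand L M (jqModC L)⟯ := by
  rw [laurentBaseChange, IntermediateField.adjoin_le_iff]
  rintro _ ⟨y, hy, rfl⟩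
  have hy' : y ∈ IntermediateField.adjoin ℚ {qExpand ℚ M jq} := hy
  rw [SetLike.mem_coe]
  clear hy
  induction hy' using IntermediateField.adjoin_induction with
  | mem z hz =>
    rw [Set.mem_singleton_iff] at hz
    rw [hz, tgp_coeffEmb_jM]
    exact IntermediateField.mem_adjoin_simple_self L _
  | algebraMap c =>
    have : coeffEmb L (algebraMap ℚ (LaurentSeries ℚ) c) =
        algebraMap L (LaurentSeries L) (algebraMap ℚ L c) := by
      rw [coeffEmb, algebraMap_laurentSeries_eq_single, algebraMap_laurentSeries_eq_single,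
        coeffMap_single]
    rw [this]
    exact IntermediateField.algebraMap_mem _ _
  | add x y _ _ hx hy =>
    rw [map_add]
    exact add_mem hx hy
  | inv x _ hx =>
    rw [map_inv₀]
    exact inv_mem hx
  | mul x y _ _ hx hy =>
    rw [map_mul]
    exact mul_mem hx hy

end JField

variable {L K : Type*} [Field L] [Field K] [Algebra ℚ L] [Algebra ℚ K] (φ : L →+* K) {M : ℕ}
  [NeZero M] {ζ : Lˣ} (hζ : IsPrimitiveRoot ζ M) (G : TgGalois K M (Units.map (φ : L →* K) ζ))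

/-- the fixed field of the descended action is `L(j)` -/
theorem tgp_fixed (x : ↥(tgFull L M ζ)) (hx : ∀ γ : SL(2, ℤ), tgpRho φ hζ G γ x = x) :
    x ∈ IntermediateField.adjoin L {tgJ L M ζ} := by
  have h1 : tgpIota φ hζ x ∈ IntermediateField.adjoin K {tgJ K M (Units.map (φ : L →* K) ζ)} := by
    apply G.fixed
    intro γ
    rw [← tgpRho_spec, hx γ]
  rw [tgp_mem_adjoin_coe_iff] at h1 ⊢
  have h2 : coeffMap φ (x : LaurentSeries L) ∈ laurentBaseChange K (tgpJQ M) :=
    tgp_adjoin_le_baseChange K M h1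
  exact tgp_baseChange_le_adjoin L M (tdx_mem_of_coeffMap_mem (tgpJQ M) φ h2)

/-- **the descended Galois package** -/
def tgpGal : TgGalois L M ζ := (tgpPre φ hζ G).toGalois (tgp_fixed φ hζ G)

theorem tgpGal_ρ : (tgpGal φ hζ G).ρ = tgpRho φ hζ G := rfl

theorem coe_tgpGal_ρ (γ : SL(2, ℤ)) (x : ↥(tgFull L M ζ)) :
    coeffMap φ (((tgpGal φ hζ G).ρ γ x : ↥(tgFull L M ζ)) : LaurentSeries L) =
      ((G.ρ γ (tgpIota φ hζ x) : ↥(tgFull K M (Units.map (φ : L →* K) ζ))) : LaurentSeries K) := by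
  rw [← coe_tgpIota φ hζ, tgpGal_ρ, tgpRho_spec]

end Fermat.Agent.T1G
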